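import Fermat.Agent.S05.AddSub

/-!
# The subgroups `E₀` and `E₁` of a Weierstrass curve over a valued field

For a valuation `v` on a field `L` and a Weierstrass curve `W` over `L`:

* `InE1 v P` : `P = 0` or `x(P)` is not integral (`1 < v (x P)`); closed under `+` as soon as
  the `b`-invariants are integral.
* `InE0 v P` : `P = 0` or `x(P)` is not in the maximal ideal (`1 ≤ v (x P)`); closed under `+`
  for curves in the normal form `a₃ = a₆ = 0`, `v a₄ < 1`, `v b₂ = 1`, `v 2 = 1`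
  (multiplicative reduction with the node at the origin).
-/

set_option autoImplicit false

namespace Fermat.Agent.S05.H41

open WeierstrassCurve Fermat.Agent.S05

section core

variable {Γ₀ : Type*} [LinearOrderedCommGroupWithZero Γ₀]

/-- Pure ordered-group core of the closure of `E₀` under addition. -/
theorem core_E0 {a b d s w₁ w₂ : Γ₀} (hw₂ : 1 ≤ w₂) (hle : w₂ ≤ w₁) (hd0 : d ≠ 0) (hd : d ≤ w₁)
    (hprod : a * b * d ^ 2 = (w₁ * w₂) ^ 2) (hsum : s * d ^ 2 ≤ w₁ * w₂ * w₁)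
    (hsb : a < b → s = b) : 1 ≤ a := by
  by_contra ha
  rw [not_le] at ha
  have hw₁ : 1 ≤ w₁ := le_trans hw₂ hle
  have hw₁pos : 0 < w₁ := lt_of_lt_of_le zero_lt_one hw₁
  have hw₂pos : 0 < w₂ := lt_of_lt_of_le zero_lt_one hw₂
  have hwwpos : 0 < w₁ * w₂ := mul_pos hw₁pos hw₂pos
  have hdpos : 0 < d := zero_lt_iff.mpr hd0
  have hd2pos : 0 < d ^ 2 := pow_pos hdpos 2
  have hrhs : (w₁ * w₂) ^ 2 ≠ 0 := pow_ne_zero 2 hwwpos.ne'
  have ha0 : a ≠ 0 := by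
    rintro rfl
    rw [zero_mul, zero_mul] at hprod
    exact hrhs hprod.symm
  have hapos : 0 < a := zero_lt_iff.mpr ha0
  have hd2 : d ^ 2 ≤ (w₁ * w₂) ^ 2 := by
    have h1 : d ≤ w₁ * w₂ := le_trans hd (le_mul_of_one_le_right' hw₂)
    exact pow_le_pow_left₀ zero_le h1 2
  have hb : 1 < b := by
    by_contra hb
    rw [not_lt] at hb
    have h1 : a * b * d ^ 2 ≤ a * d ^ 2 := by
      have : a * b ≤ a := mul_le_of_le_one_right' hb
      exact mul_le_mul' this le_rfl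
    have h2 : a * d ^ 2 < d ^ 2 := by
      calc a * d ^ 2 < 1 * d ^ 2 := mul_lt_mul_of_pos_right ha hd2pos
        _ = d ^ 2 := one_mul _
    have h3 : a * b * d ^ 2 < (w₁ * w₂) ^ 2 := lt_of_le_of_lt h1 (lt_of_lt_of_le h2 hd2)
    exact (ne_of_lt h3) hprod
  have hs : s = b := hsb (lt_trans ha hb)
  rw [hs] at hsum
  have h4 : a * (b * d ^ 2) ≤ a * (w₁ * w₂ * w₁) := mul_le_mul' le_rfl hsum
  have h5 : a * (w₁ * w₂ * w₁) < w₁ * w₂ * w₁ := by
    calc a * (w₁ * w₂ * w₁) < 1 * (w₁ * w₂ * w₁) :=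
          mul_lt_mul_of_pos_right ha (mul_pos hwwpos hw₁pos)
      _ = w₁ * w₂ * w₁ := one_mul _
  have h6 : (w₁ * w₂) * (w₁ * w₂) < (w₁ * w₂) * w₁ := by
    calc (w₁ * w₂) * (w₁ * w₂) = (w₁ * w₂) ^ 2 := (sq _).symm
      _ = a * b * d ^ 2 := hprod.symm
      _ = a * (b * d ^ 2) := mul_assoc _ _ _
      _ ≤ a * (w₁ * w₂ * w₁) := h4
      _ < w₁ * w₂ * w₁ := h5
  have h7 : w₁ * w₂ < w₁ := lt_of_mul_lt_mul_left' h6
  exact absurd (le_mul_of_one_le_right' hw₂) (not_le.mpr h7)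

/-- Pure ordered-group core of the closure of `E₁` under addition. -/
theorem core_E1 {a b d s w₁ w₂ : Γ₀} (hw₂ : 1 < w₂) (hle : w₂ ≤ w₁) (hd0 : d ≠ 0) (hd : d ≤ w₁)
    (hprod : a * b * d ^ 2 = (w₁ * w₂) ^ 2) (hsum : s * d ^ 2 ≤ w₁ * w₂ * w₁)
    (hsb : a < b → s = b) : 1 < a := by
  by_contra ha
  rw [not_lt] at ha
  have hw₁ : 1 < w₁ := lt_of_lt_of_le hw₂ hle
  have hw₁pos : 0 < w₁ := lt_trans zero_lt_one hw₁
  have hw₂pos : 0 < w₂ := lt_trans zero_lt_one hw₂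
  have hwwpos : 0 < w₁ * w₂ := mul_pos hw₁pos hw₂pos
  have hdpos : 0 < d := zero_lt_iff.mpr hd0
  have hd2pos : 0 < d ^ 2 := pow_pos hdpos 2
  have hrhs : (w₁ * w₂) ^ 2 ≠ 0 := pow_ne_zero 2 hwwpos.ne'
  have hlt : w₁ < w₁ * w₂ := by
    calc w₁ = w₁ * 1 := (mul_one _).symm
      _ < w₁ * w₂ := mul_lt_mul_of_pos_left hw₂ hw₁pos
  have hd2 : d ^ 2 < (w₁ * w₂) ^ 2 := by
    have h1 : d < w₁ * w₂ := lt_of_le_of_lt hd hlt
    exact pow_lt_pow_left₀ h1 zero_le two_ne_zero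
  have hb : 1 < b := by
    by_contra hb
    rw [not_lt] at hb
    have h1 : a * b * d ^ 2 ≤ 1 * d ^ 2 := by
      have : a * b ≤ 1 := mul_le_one' ha hb
      exact mul_le_mul' this le_rfl
    rw [one_mul] at h1
    exact (ne_of_lt (lt_of_le_of_lt h1 hd2)) hprod
  have hs : s = b := hsb (lt_of_le_of_lt ha hb)
  rw [hs] at hsum
  have h4 : a * (b * d ^ 2) ≤ 1 * (w₁ * w₂ * w₁) := mul_le_mul' ha hsum
  rw [one_mul] at h4
  have h6 : (w₁ * w₂) * (w₁ * w₂) ≤ (w₁ * w₂) * w₁ := by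
    calc (w₁ * w₂) * (w₁ * w₂) = (w₁ * w₂) ^ 2 := (sq _).symm
      _ = a * b * d ^ 2 := hprod.symm
      _ = a * (b * d ^ 2) := mul_assoc _ _ _
      _ ≤ w₁ * w₂ * w₁ := h4
  have h7 : w₁ * w₂ ≤ w₁ := le_of_mul_le_mul_left h6 hwwpos
  exact absurd hlt (not_lt.mpr h7)

end core

variable {L : Type*} [Field L] [DecidableEq L] {Γ₀ : Type*} [LinearOrderedCommGroupWithZero Γ₀]

/-- `P` is zero or has an `x`-coordinate outside the maximal ideal of `v`. -/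
def InE0 (v : Valuation L Γ₀) {W : Affine L} (P : W.Point) : Prop :=
  P = 0 ∨ 1 ≤ v (xOf P)

/-- `P` is zero or has a non-integral `x`-coordinate. -/
def InE1 (v : Valuation L Γ₀) {W : Affine L} (P : W.Point) : Prop :=
  P = 0 ∨ 1 < v (xOf P)

omit [DecidableEq L] in
theorem InE0.neg {v : Valuation L Γ₀} {W : Affine L} {P : W.Point} (hP : InE0 v P) :
    InE0 v (-P) := by
  rcases hP with rfl | h
  · exact Or.inl Affine.Point.neg_zero
  · exact Or.inr (by rwa [xOf_neg])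

omit [DecidableEq L] in
theorem InE1.neg {v : Valuation L Γ₀} {W : Affine L} {P : W.Point} (hP : InE1 v P) :
    InE1 v (-P) := by
  rcases hP with rfl | h
  · exact Or.inl Affine.Point.neg_zero
  · exact Or.inr (by rwa [xOf_neg])

omit [DecidableEq L] in
theorem val_two_le_one (v : Valuation L Γ₀) : v (2 : L) ≤ 1 := by
  have h : (2 : L) = 1 + 1 := by norm_num
  rw [h]
  exact v.map_add_le (le_of_eq v.map_one) (le_of_eq v.map_one)

/-- The normal form of a curve with multiplicative reduction (node at the origin). -/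
structure MultForm (v : Valuation L Γ₀) (W : Affine L) : Prop where
  h₃ : W.a₃ = 0
  h₆ : W.a₆ = 0
  h2 : v 2 = 1
  hb₂ : v W.b₂ = 1
  ha₄ : v W.a₄ < 1

namespace MultForm

variable {v : Valuation L Γ₀} {W : Affine L}

omit [DecidableEq L] in
theorem b₄_eq (hW : MultForm v W) : W.b₄ = 2 * W.a₄ := by
  simp [WeierstrassCurve.b₄, hW.h₃]

omit [DecidableEq L] in
theorem b₆_eq (hW : MultForm v W) : W.b₆ = 0 := by
  simp [WeierstrassCurve.b₆, hW.h₃, hW.h₆]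

omit [DecidableEq L] in
theorem b₈_eq (hW : MultForm v W) : W.b₈ = -W.a₄ ^ 2 := by
  simp [WeierstrassCurve.b₈, hW.h₃, hW.h₆]

omit [DecidableEq L] in
theorem val_four (hW : MultForm v W) : v (4 : L) = 1 := by
  rw [show (4 : L) = 2 * 2 by norm_num, map_mul, hW.h2, one_mul]

/-- The product formula in normal form. -/
theorem prod_formula (hW : MultForm v W) {P Q : W.Point} (hP : P ≠ 0) (hQ : Q ≠ 0)
    (hx : xOf P ≠ xOf Q) :
    xOf (P + Q) * xOf (P - Q) * (xOf P - xOf Q) ^ 2 = (xOf P * xOf Q - W.a₄) ^ 2 := by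
  have h := (xOf_addsub hP hQ hx).2.2.1
  rw [h, hW.b₄_eq, hW.b₆_eq, hW.b₈_eq]
  ring

/-- The sum formula in normal form. -/
theorem sum_formula (hW : MultForm v W) {P Q : W.Point} (hP : P ≠ 0) (hQ : Q ≠ 0)
    (hx : xOf P ≠ xOf Q) :
    (xOf (P + Q) + xOf (P - Q)) * (xOf P - xOf Q) ^ 2 =
      xOf P * xOf Q * (W.b₂ + 2 * (xOf P + xOf Q)) + 2 * W.a₄ * (xOf P + xOf Q) := by
  have h := (xOf_addsub hP hQ hx).2.2.2
  rw [h, hW.b₄_eq, hW.b₆_eq]
  ring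

/-- The duplication formula in normal form. -/
theorem dup_formula (hW : MultForm v W) {P : W.Point} (hP : P ≠ 0) (h2 : P + P ≠ 0) :
    xOf (P + P) * xOf P * (4 * xOf P ^ 2 + W.b₂ * xOf P + 4 * W.a₄) =
      (xOf P ^ 2 - W.a₄) ^ 2 := by
  have h := xOf_dbl hP h2
  rw [hW.b₄_eq, hW.b₆_eq, hW.b₈_eq] at h
  linear_combination h

theorem inE0_add_aux (hW : MultForm v W) {P Q : W.Point} (hP0 : P ≠ 0) (hQ0 : Q ≠ 0)
    (hQ : 1 ≤ v (xOf Q)) (hle : v (xOf Q) ≤ v (xOf P)) (hx : xOf P ≠ xOf Q) :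
    1 ≤ v (xOf (P + Q)) := by
  have hprod := congrArg v (hW.prod_formula hP0 hQ0 hx)
  have hsum := congrArg v (hW.sum_formula hP0 hQ0 hx)
  have hP : 1 ≤ v (xOf P) := le_trans hQ hle
  have hww : 1 ≤ v (xOf P) * v (xOf Q) := one_le_mul_of_one_le_of_one_le hP hQ
  have hd0 : v (xOf P - xOf Q) ≠ 0 := (v.ne_zero_iff).mpr (sub_ne_zero.mpr hx)
  have hd : v (xOf P - xOf Q) ≤ v (xOf P) := v.map_sub_le le_rfl hle
  have hadd : v (xOf P + xOf Q) ≤ v (xOf P) := v.map_add_le le_rfl hle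
  have e1 : v (xOf P * xOf Q - W.a₄) = v (xOf P) * v (xOf Q) := by
    rw [v.map_sub_eq_of_lt_left, map_mul]
    rw [map_mul]
    exact lt_of_lt_of_le hW.ha₄ hww
  rw [map_mul, map_mul, map_pow, map_pow, e1] at hprod
  rw [map_mul, map_pow] at hsum
  have e2 : v (xOf P * xOf Q * (W.b₂ + 2 * (xOf P + xOf Q)) + 2 * W.a₄ * (xOf P + xOf Q)) ≤
      v (xOf P) * v (xOf Q) * v (xOf P) := by
    refine v.map_add_le ?_ ?_
    · rw [map_mul, map_mul]
      refine mul_le_mul' le_rfl (v.map_add_le ?_ ?_)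
      · rw [hW.hb₂]; exact hP
      · rw [map_mul, hW.h2, one_mul]; exact hadd
    · rw [map_mul, map_mul, hW.h2, one_mul]
      calc v W.a₄ * v (xOf P + xOf Q) ≤ 1 * v (xOf P) := mul_le_mul' hW.ha₄.le hadd
        _ = v (xOf P) := one_mul _
        _ ≤ v (xOf P) * v (xOf Q) * v (xOf P) := le_mul_of_one_le_left' hww
  rw [← hsum] at e2
  exact core_E0 hQ hle hd0 hd hprod e2 (fun h => v.map_add_eq_of_lt_right h)

theorem inE0_dbl (hW : MultForm v W) {P : W.Point} (hP0 : P ≠ 0) (hP : 1 ≤ v (xOf P))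
    (h2 : P + P ≠ 0) : 1 ≤ v (xOf (P + P)) := by
  have h := congrArg v (hW.dup_formula hP0 h2)
  set w := v (xOf P) with hw
  have hwpos : 0 < w := lt_of_lt_of_le zero_lt_one hP
  have hw2 : 1 ≤ w ^ 2 := one_le_pow₀ hP
  have e1 : v (xOf P ^ 2 - W.a₄) = w ^ 2 := by
    rw [v.map_sub_eq_of_lt_left, map_pow]
    rw [map_pow]
    exact lt_of_lt_of_le hW.ha₄ hw2
  have e2 : v (4 * xOf P ^ 2 + W.b₂ * xOf P + 4 * W.a₄) ≤ w ^ 2 := by
    refine v.map_add_le (v.map_add_le ?_ ?_) ?_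
    · rw [map_mul, hW.val_four, one_mul, map_pow]
    · rw [map_mul, hW.hb₂, one_mul, sq]
      exact le_mul_of_one_le_left' hP
    · rw [map_mul, hW.val_four, one_mul]
      exact le_trans hW.ha₄.le hw2
  rw [map_mul, map_mul, map_pow, e1] at h
  by_contra hcon
  rw [not_le] at hcon
  have h3 : v (xOf (P + P)) * w * v (4 * xOf P ^ 2 + W.b₂ * xOf P + 4 * W.a₄) ≤
      v (xOf (P + P)) * w * w ^ 2 := mul_le_mul' le_rfl e2
  have h4 : v (xOf (P + P)) * w * w ^ 2 < 1 * w * w ^ 2 := by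
    have : v (xOf (P + P)) * (w * w ^ 2) < 1 * (w * w ^ 2) :=
      mul_lt_mul_of_pos_right hcon (mul_pos hwpos (pow_pos hwpos 2))
    simpa [mul_assoc] using this
  have h5 : (w ^ 2) ^ 2 < 1 * w * w ^ 2 := lt_of_le_of_lt (h ▸ h3) h4
  have h6 : 1 * w * w ^ 2 ≤ (w ^ 2) ^ 2 := by
    rw [one_mul, sq (w ^ 2)]
    exact mul_le_mul' (by rw [sq]; exact le_mul_of_one_le_left' hP) le_rfl
  exact absurd h5 (not_lt.mpr h6)

/-- `E₀` is closed under addition. -/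
theorem inE0_add (hW : MultForm v W) {P Q : W.Point} (hP : InE0 v P) (hQ : InE0 v Q) :
    InE0 v (P + Q) := by
  rcases hP with rfl | hP
  · rwa [zero_add]
  rcases hQ with rfl | hQ
  · rw [add_zero]; exact Or.inr hP
  by_cases hP0 : P = 0
  · subst hP0; rw [zero_add]; exact Or.inr hQ
  by_cases hQ0 : Q = 0
  · subst hQ0; rw [add_zero]; exact Or.inr hP
  by_cases hx : xOf P = xOf Q
  · rcases (xOf_eq_iff hP0 hQ0).mp hx with rfl | rfl
    · by_cases h2 : P + P = 0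
      · exact Or.inl h2
      · exact Or.inr (hW.inE0_dbl hP0 hP h2)
    · exact Or.inl (neg_add_cancel Q)
  · rcases le_total (v (xOf Q)) (v (xOf P)) with hle | hle
    · exact Or.inr (hW.inE0_add_aux hP0 hQ0 hQ hle hx)
    · rw [add_comm]
      exact Or.inr (hW.inE0_add_aux hQ0 hP0 hP hle (Ne.symm hx))

theorem inE0_nsmul (hW : MultForm v W) {P : W.Point} (hP : InE0 v P) (n : ℕ) :
    InE0 v (n • P) := by
  induction n with
  | zero => exact Or.inl (zero_nsmul P)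
  | succ n ih => rw [succ_nsmul]; exact hW.inE0_add ih hP

end MultForm

section E1

variable {v : Valuation L Γ₀} {W : Affine L}

theorem inE1_add_aux (hb₂ : v W.b₂ ≤ 1) (hb₄ : v W.b₄ ≤ 1) (hb₆ : v W.b₆ ≤ 1)
    (hb₈ : v W.b₈ ≤ 1) {P Q : W.Point} (hP0 : P ≠ 0) (hQ0 : Q ≠ 0)
    (hQ : 1 < v (xOf Q)) (hle : v (xOf Q) ≤ v (xOf P)) (hx : xOf P ≠ xOf Q) :
    1 < v (xOf (P + Q)) := by
  obtain ⟨-, -, hprod, hsum⟩ := xOf_addsub hP0 hQ0 hx
  have hprod := congrArg v hprod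
  have hsum := congrArg v hsum
  have hP : 1 < v (xOf P) := lt_of_lt_of_le hQ hle
  set w₁ := v (xOf P) with hw₁
  set w₂ := v (xOf Q) with hw₂
  have hw₁pos : 0 < w₁ := lt_trans zero_lt_one hP
  have hw₂pos : 0 < w₂ := lt_trans zero_lt_one hQ
  have hww : 1 < w₁ * w₂ := one_lt_mul_of_lt_of_le' hP hQ.le
  have hwwpos : 0 < w₁ * w₂ := lt_trans zero_lt_one hww
  have hww2 : w₁ * w₂ < (w₁ * w₂) ^ 2 := by
    rw [sq]
    calc w₁ * w₂ = 1 * (w₁ * w₂) := (one_mul _).symm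
      _ < (w₁ * w₂) * (w₁ * w₂) := mul_lt_mul_of_pos_right hww hwwpos
  have hw₁ww : w₁ ≤ w₁ * w₂ := le_mul_of_one_le_right' hQ.le
  have hd0 : v (xOf P - xOf Q) ≠ 0 := (v.ne_zero_iff).mpr (sub_ne_zero.mpr hx)
  have hd : v (xOf P - xOf Q) ≤ w₁ := v.map_sub_le le_rfl hle
  have hadd : v (xOf P + xOf Q) ≤ w₁ := v.map_add_le le_rfl hle
  have e1 : v ((xOf P * xOf Q) ^ 2 - W.b₄ * (xOf P * xOf Q) - W.b₆ * (xOf P + xOf Q) - W.b₈) =
      (w₁ * w₂) ^ 2 := by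
    have t1 : v ((xOf P * xOf Q) ^ 2) = (w₁ * w₂) ^ 2 := by rw [map_pow, map_mul]
    have t2 : v (W.b₄ * (xOf P * xOf Q)) < (w₁ * w₂) ^ 2 := by
      rw [map_mul, map_mul]
      calc v W.b₄ * (w₁ * w₂) ≤ 1 * (w₁ * w₂) := mul_le_mul' hb₄ le_rfl
        _ = w₁ * w₂ := one_mul _
        _ < (w₁ * w₂) ^ 2 := hww2
    have t3 : v (W.b₆ * (xOf P + xOf Q)) < (w₁ * w₂) ^ 2 := by
      rw [map_mul]
      calc v W.b₆ * v (xOf P + xOf Q) ≤ 1 * w₁ := mul_le_mul' hb₆ hadd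
        _ = w₁ := one_mul _
        _ ≤ w₁ * w₂ := hw₁ww
        _ < (w₁ * w₂) ^ 2 := hww2
    have t4 : v W.b₈ < (w₁ * w₂) ^ 2 := lt_of_le_of_lt hb₈ (lt_trans hww hww2)
    have s1 : v ((xOf P * xOf Q) ^ 2 - W.b₄ * (xOf P * xOf Q)) = (w₁ * w₂) ^ 2 := by
      rw [v.map_sub_eq_of_lt_left (by rw [t1]; exact t2), t1]
    have s2 : v ((xOf P * xOf Q) ^ 2 - W.b₄ * (xOf P * xOf Q) - W.b₆ * (xOf P + xOf Q)) =
        (w₁ * w₂) ^ 2 := by
      rw [v.map_sub_eq_of_lt_left (by rw [s1]; exact t3), s1]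
    rw [v.map_sub_eq_of_lt_left (by rw [s2]; exact t4), s2]
  have e2 : v (2 * (xOf P + xOf Q) * (xOf P * xOf Q) + W.b₂ * (xOf P * xOf Q)
      + W.b₄ * (xOf P + xOf Q) + W.b₆) ≤ w₁ * w₂ * w₁ := by
    have hbig : 1 ≤ w₁ * w₂ * w₁ := one_le_mul_of_one_le_of_one_le hww.le hP.le
    refine v.map_add_le (v.map_add_le (v.map_add_le ?_ ?_) ?_) ?_
    · rw [map_mul, map_mul, map_mul]
      calc v 2 * v (xOf P + xOf Q) * (w₁ * w₂) ≤ 1 * w₁ * (w₁ * w₂) :=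
            mul_le_mul' (mul_le_mul' (val_two_le_one v) hadd) le_rfl
        _ = w₁ * w₂ * w₁ := by rw [one_mul, mul_comm]
    · rw [map_mul, map_mul]
      calc v W.b₂ * (w₁ * w₂) ≤ 1 * (w₁ * w₂) := mul_le_mul' hb₂ le_rfl
        _ = w₁ * w₂ := one_mul _
        _ ≤ w₁ * w₂ * w₁ := le_mul_of_one_le_right' hP.le
    · rw [map_mul]
      calc v W.b₄ * v (xOf P + xOf Q) ≤ 1 * w₁ := mul_le_mul' hb₄ hadd
        _ = w₁ := one_mul _
        _ ≤ w₁ * w₂ * w₁ := le_mul_of_one_le_left' hww.le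
    · exact le_trans hb₆ hbig
  rw [map_mul, map_mul, map_pow, e1] at hprod
  rw [map_mul, map_pow] at hsum
  rw [← hsum] at e2
  exact core_E1 hQ hle hd0 hd hprod e2 (fun h => v.map_add_eq_of_lt_right h)

theorem inE1_dbl (hb₂ : v W.b₂ ≤ 1) (hb₄ : v W.b₄ ≤ 1) (hb₆ : v W.b₆ ≤ 1)
    (hb₈ : v W.b₈ ≤ 1) {P : W.Point} (hP0 : P ≠ 0) (hP : 1 < v (xOf P))
    (h2 : P + P ≠ 0) : 1 < v (xOf (P + P)) := by
  have h := congrArg v (xOf_dbl hP0 h2)
  set w := v (xOf P) with hw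
  have hwpos : 0 < w := lt_trans zero_lt_one hP
  have hpow : ∀ m n : ℕ, m < n → w ^ m < w ^ n := fun m n hmn => pow_lt_pow_right₀ hP hmn
  have e1 : v (xOf P ^ 4 - W.b₄ * xOf P ^ 2 - 2 * W.b₆ * xOf P - W.b₈) = w ^ 4 := by
    have t1 : v (xOf P ^ 4) = w ^ 4 := by rw [map_pow]
    have t2 : v (W.b₄ * xOf P ^ 2) < w ^ 4 := by
      rw [map_mul, map_pow]
      calc v W.b₄ * w ^ 2 ≤ 1 * w ^ 2 := mul_le_mul' hb₄ le_rfl
        _ = w ^ 2 := one_mul _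
        _ < w ^ 4 := hpow 2 4 (by norm_num)
    have t3 : v (2 * W.b₆ * xOf P) < w ^ 4 := by
      rw [map_mul, map_mul]
      calc v 2 * v W.b₆ * w ≤ 1 * 1 * w := mul_le_mul' (mul_le_mul' (val_two_le_one v) hb₆) le_rfl
        _ = w ^ 1 := by rw [one_mul, one_mul, pow_one]
        _ < w ^ 4 := hpow 1 4 (by norm_num)
    have t4 : v W.b₈ < w ^ 4 := by
      calc v W.b₈ ≤ 1 := hb₈
        _ = w ^ 0 := (pow_zero w).symm
        _ < w ^ 4 := hpow 0 4 (by norm_num)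
    have s1 : v (xOf P ^ 4 - W.b₄ * xOf P ^ 2) = w ^ 4 := by
      rw [v.map_sub_eq_of_lt_left (by rw [t1]; exact t2), t1]
    have s2 : v (xOf P ^ 4 - W.b₄ * xOf P ^ 2 - 2 * W.b₆ * xOf P) = w ^ 4 := by
      rw [v.map_sub_eq_of_lt_left (by rw [s1]; exact t3), s1]
    rw [v.map_sub_eq_of_lt_left (by rw [s2]; exact t4), s2]
  have e2 : v (4 * xOf P ^ 3 + W.b₂ * xOf P ^ 2 + 2 * W.b₄ * xOf P + W.b₆) ≤ w ^ 3 := by
    have h4 : v (4 : L) ≤ 1 := by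
      rw [show (4 : L) = 2 * 2 by norm_num, map_mul]
      exact mul_le_one' (val_two_le_one v) (val_two_le_one v)
    refine v.map_add_le (v.map_add_le (v.map_add_le ?_ ?_) ?_) ?_
    · rw [map_mul, map_pow]
      calc v 4 * w ^ 3 ≤ 1 * w ^ 3 := mul_le_mul' h4 le_rfl
        _ = w ^ 3 := one_mul _
    · rw [map_mul, map_pow]
      calc v W.b₂ * w ^ 2 ≤ 1 * w ^ 2 := mul_le_mul' hb₂ le_rfl
        _ = w ^ 2 := one_mul _
        _ ≤ w ^ 3 := (hpow 2 3 (by norm_num)).le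
    · rw [map_mul, map_mul]
      calc v 2 * v W.b₄ * w ≤ 1 * 1 * w := mul_le_mul' (mul_le_mul' (val_two_le_one v) hb₄) le_rfl
        _ = w ^ 1 := by rw [one_mul, one_mul, pow_one]
        _ ≤ w ^ 3 := (hpow 1 3 (by norm_num)).le
    · calc v W.b₆ ≤ 1 := hb₆
        _ = w ^ 0 := (pow_zero w).symm
        _ ≤ w ^ 3 := (hpow 0 3 (by norm_num)).le
  rw [map_mul, e1] at h
  by_contra hcon
  rw [not_lt] at hcon
  have h3 : v (xOf (P + P)) * v (4 * xOf P ^ 3 + W.b₂ * xOf P ^ 2 + 2 * W.b₄ * xOf P + W.b₆) ≤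
      1 * w ^ 3 := mul_le_mul' hcon e2
  rw [h, one_mul] at h3
  exact absurd (hpow 3 4 (by norm_num)) (not_lt.mpr h3)

/-- `E₁` is closed under addition (integral `b`-invariants). -/
theorem inE1_add (hb₂ : v W.b₂ ≤ 1) (hb₄ : v W.b₄ ≤ 1) (hb₆ : v W.b₆ ≤ 1)
    (hb₈ : v W.b₈ ≤ 1) {P Q : W.Point} (hP : InE1 v P) (hQ : InE1 v Q) :
    InE1 v (P + Q) := by
  rcases hP with rfl | hP
  · rwa [zero_add]
  rcases hQ with rfl | hQ
  · rw [add_zero]; exact Or.inr hP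
  by_cases hP0 : P = 0
  · subst hP0; rw [zero_add]; exact Or.inr hQ
  by_cases hQ0 : Q = 0
  · subst hQ0; rw [add_zero]; exact Or.inr hP
  by_cases hx : xOf P = xOf Q
  · rcases (xOf_eq_iff hP0 hQ0).mp hx with rfl | rfl
    · by_cases h2 : P + P = 0
      · exact Or.inl h2
      · exact Or.inr (inE1_dbl hb₂ hb₄ hb₆ hb₈ hP0 hP h2)
    · exact Or.inl (neg_add_cancel Q)
  · rcases le_total (v (xOf Q)) (v (xOf P)) with hle | hle
    · exact Or.inr (inE1_add_aux hb₂ hb₄ hb₆ hb₈ hP0 hQ0 hQ hle hx)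
    · rw [add_comm]
      exact Or.inr (inE1_add_aux hb₂ hb₄ hb₆ hb₈ hQ0 hP0 hP hle (Ne.symm hx))

end E1

end Fermat.Agent.S05.H41
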